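/-
Row S34 (helper789): the frozen statement S34 from the two remaining inputs

* `hU  : HasAdicEigenModulesU` — adic eigenmodules (row S30 mid layer) on which the inertia groups
  at the primes `q ≠ p`, `q ∥ N` act unipotently (cell A2);
* `hSS : SSStatement`          — the anemic Hecke algebra is reduced (row S31, piece SS).

Everything else is on main: CHEB Tier 1, S22, piece D of row S31 (`H262.pts_of_reduced`), the
extraction of helper990 and the top glue of helper733.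
-/
import Fermat.Agent.S34.K789.S30U
import Fermat.Agent.S31.H22.Final

set_option autoImplicit false

namespace Fermat.Agent.S34.K789

open Fermat.Agent.S31

/-- **The frozen statement S34** (binders exactly as in the template) from the unipotent adic
eigenmodules and the reducedness of the anemic Hecke algebra. -/
theorem result_of_U_SS (hU : HasAdicEigenModulesU) (hSS : Fermat.Agent.S31.H22.SSStatement)
    {𝒪 : Type} [CommRing 𝒪] [IsDomain 𝒪] [IsDiscreteValuationRing 𝒪]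
    [IsAdicComplete (IsLocalRing.maximalIdeal 𝒪) 𝒪] [Finite (IsLocalRing.ResidueField 𝒪)]
    [CharZero 𝒪]
    {p : ℕ} (hp : p.Prime) (hp𝒪 : (p : 𝒪) ∈ IsLocalRing.maximalIdeal 𝒪)
    {N : ℕ} [NeZero N] {S : Finset ℕ} (hpS : p ∈ S) (hNS : ∀ q : ℕ, q.Prime → q ∣ N → q ∈ S)
    {θ : CuspForm.heckeAlgebra N 2 (↑S : Set ℕ) →+* IsLocalRing.ResidueField 𝒪}
    {T : Type} [CommRing T] [IsLocalRing T] [IsNoetherianRing T]
    [IsAdicComplete (IsLocalRing.maximalIdeal T) T] [Algebra 𝒪 T] [IsLocalHom (algebraMap 𝒪 T)]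
    [Module.Finite 𝒪 T] [Module.Free 𝒪 T]
    (H : CuspForm.HeckeGaloisRepDatum N (↑S : Set ℕ) 𝒪 θ T)
    (q : ℕ) (hq : q.Prime) (hqp : q ≠ p) (hqN : q ∣ N) (hq2 : ¬ q ^ 2 ∣ N) :
    H.ρ.IsUnipotentOnInertiaAt q := by
  have hfin : Module.Finite ℤ (CuspForm.heckeAlgebra N 2 (↑S : Set ℕ)) :=
    Fermat.Agent.S22.result N 2 (↑S : Set ℕ)
  have hred : IsReduced (CuspForm.heckeAlgebra N 2 (↑S : Set ℕ)) :=
    hSS N (↑S : Set ℕ) (fun q hq hqN => by simpa using hNS q hq hqN)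
  have hPTS : PTS p (CuspForm.heckeAlgebra N 2 (↑S : Set ℕ)) :=
    H262.pts_of_reduced p hp _
  exact Fermat.Agent.S34.H733.unipotent_of_parts (s30U_of_hasAdicEigenModulesU hU)
    Fermat.Agent.Lib.Cheb.H943.frobeniusDivisionStatement hp hp𝒪 hpS hNS hPTS H q hq hqp hqN hq2

/-- The same with SS replaced by its analytic core `PeterssonData`. -/
theorem result_of_U_petersson (hU : HasAdicEigenModulesU)
    (hPet : ∀ (N : ℕ) [NeZero N], Nonempty (Fermat.Agent.S31.H22.PeterssonData N))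
    {𝒪 : Type} [CommRing 𝒪] [IsDomain 𝒪] [IsDiscreteValuationRing 𝒪]
    [IsAdicComplete (IsLocalRing.maximalIdeal 𝒪) 𝒪] [Finite (IsLocalRing.ResidueField 𝒪)]
    [CharZero 𝒪]
    {p : ℕ} (hp : p.Prime) (hp𝒪 : (p : 𝒪) ∈ IsLocalRing.maximalIdeal 𝒪)
    {N : ℕ} [NeZero N] {S : Finset ℕ} (hpS : p ∈ S) (hNS : ∀ q : ℕ, q.Prime → q ∣ N → q ∈ S)
    {θ : CuspForm.heckeAlgebra N 2 (↑S : Set ℕ) →+* IsLocalRing.ResidueField 𝒪}
    {T : Type} [CommRing T] [IsLocalRing T] [IsNoetherianRing T]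
    [IsAdicComplete (IsLocalRing.maximalIdeal T) T] [Algebra 𝒪 T] [IsLocalHom (algebraMap 𝒪 T)]
    [Module.Finite 𝒪 T] [Module.Free 𝒪 T]
    (H : CuspForm.HeckeGaloisRepDatum N (↑S : Set ℕ) 𝒪 θ T)
    (q : ℕ) (hq : q.Prime) (hqp : q ≠ p) (hqN : q ∣ N) (hq2 : ¬ q ^ 2 ∣ N) :
    H.ρ.IsUnipotentOnInertiaAt q :=
  result_of_U_SS hU (Fermat.Agent.S31.H22.ssStatement_of_petersson hPet) hp hp𝒪 hpS hNS H q hq
    hqp hqN hq2

end Fermat.Agent.S34.K789
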