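/-
S34 — PLAIN TOP for consumers (helper789).

`Fermat/Agent/S34.lean` may be replaced by a PACKED top (lead rulings #10644, #11030), so no file may
import the statement module `Fermat.Agent.S34`.  Consumers import THIS module instead and use

    Fermat.Agent.S34.K789.result_plain789

which has the frozen S34 statement verbatim and the same proof term as the plain `S34.lean`
(`K789.result_of_wall` applied to the A2 wall).  Closure = the plain S34 chain (realizer `S31/H22/PowTr`).
-/
import Fermat.Statements.S34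
import Fermat.Agent.S34.K789.WallFinal
import Fermat.Agent.A2.Top.H96.WallNoSep
import Fermat.Agent.A2.Mod.H142.S2Final
import Fermat.Agent.A2.Mod.H372.S3
import Fermat.Agent.A2.Mod.H96.L12
import Fermat.Agent.A2.Mod.H216.GoodRedAll

set_option autoImplicit false
open IsLocalRing
open CuspForm CuspForm.HeckeGaloisRepDatum

namespace Fermat.Agent.S34.K789

/-- The frozen S34 statement, proved on the PLAIN chain (for consumers; never import `Fermat.Agent.S34`). -/
theorem result_plain789
    {𝒪 : Type} [CommRing 𝒪] [IsDomain 𝒪] [IsDiscreteValuationRing 𝒪]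
    [IsAdicComplete (maximalIdeal 𝒪) 𝒪] [Finite (ResidueField 𝒪)] [CharZero 𝒪]
    {p : ℕ} (hp : p.Prime) (hp𝒪 : (p : 𝒪) ∈ maximalIdeal 𝒪)
    {N : ℕ} [NeZero N] {S : Finset ℕ} (hpS : p ∈ S) (hNS : ∀ q : ℕ, q.Prime → q ∣ N → q ∈ S)
    {θ : CuspForm.heckeAlgebra N 2 (↑S : Set ℕ) →+* ResidueField 𝒪}
    {T : Type} [CommRing T] [IsLocalRing T] [IsNoetherianRing T]
    [IsAdicComplete (maximalIdeal T) T] [Algebra 𝒪 T] [IsLocalHom (algebraMap 𝒪 T)]
    [Module.Finite 𝒪 T] [Module.Free 𝒪 T]
    (H : CuspForm.HeckeGaloisRepDatum N (↑S : Set ℕ) 𝒪 θ T)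
    (q : ℕ) (hq : q.Prime) (hqp : q ≠ p) (hqN : q ∣ N) (hq2 : ¬ q ^ 2 ∣ N) :
    H.ρ.IsUnipotentOnInertiaAt q := by
  exact Fermat.Agent.S34.K789.result_of_wall
    (Fermat.Agent.A2.Top.H96.wall_noSep
      (fun P E M q _ _ w => Fermat.Agent.A2.Mod.H142.s2 P E M q w)
      (fun P E M q _ _ w => Fermat.Agent.A2.Mod.H372.s3_of_leaves P E M q w
        (Fermat.Agent.A2.Mod.H751.frickeExists E)
        (Fermat.Agent.A2.Mod.H751.frickeCompat E M q)
        (Fermat.Agent.A2.Mod.H900.frickeStable P E M q w)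
        (Fermat.Agent.A2.Mod.H31.deg E M q)
        (Fermat.Agent.A2.Mod.H378.resInf P E M q w)
        (Fermat.Agent.A2.Mod.H96.kron P E M q w)
        (Fermat.Agent.A2.Mod.H142.s2 P E M q w))
      Fermat.Agent.A2.Top.H216.goodRedStatement)
    hp hp𝒪 hpS hNS H q hq hqp hqN hq2

end Fermat.Agent.S34.K789
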